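import Mathlib
import Fermat.Agent.S13.TwoAdic.Frey2

/-!
# S13 / TwoAdic / Frey2H / T0: the rational `2`-torsion point `T₀ = (0, 0)` of the Frey curve
(owner: helper7; hedge/assist for the second half of `TwoAdic/Frey2.lean`).

No sorried lemma of `Frey2.lean` is used: only its definitions (`fa₂`, `fa₄`, `xco`, `T0`) and
`Fermat.Agent.S05` (`Bridge.lean`).  The lemmas `aux_*` are stated for an arbitrary proof
`h0 : (freyQb P).Nonsingular 0 0`; the final theorems have the statements of `Frey2.lean`.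
-/

set_option autoImplicit false

open WeierstrassCurve WeierstrassCurve.Affine

noncomputable section

namespace Fermat.Agent.S13.TwoAdic.Frey2H

open Fermat.Agent.S05 (freyQb cA cB frey_a₁ frey_a₂ frey_a₃ frey_a₄ frey_a₆ frey_nonsingular_iff)

variable (P : FreyPackage)

theorem nonsingular_zero : (freyQb P).Nonsingular 0 0 := by
  rw [frey_nonsingular_iff]
  ring

/-- The curve equation `y² + x y = x³ + a₂ x² + a₄ x`. -/
theorem aux_equation {x y : Qb} (h : (freyQb P).Nonsingular x y) :
    y ^ 2 + x * y = x ^ 3 + fa₂ P * x ^ 2 + fa₄ P * x := by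
  have h1 := (frey_nonsingular_iff P x y).mp h
  unfold fa₂ fa₄
  linear_combination (1 / 64 : Qb) * h1

theorem aux_negY (x y : Qb) : (freyQb P).negY x y = -y - x := by
  rw [Affine.negY, frey_a₁, frey_a₃]
  ring

theorem aux_add_self (h0 : (freyQb P).Nonsingular 0 0) :
    (Point.some 0 0 h0 : (freyQb P).Point) + Point.some 0 0 h0 = 0 := by
  apply Point.add_of_Y_eq rfl
  rw [aux_negY]
  ring

theorem aux_smul (σ : Gal) (h0 : (freyQb P).Nonsingular 0 0) :
    σ • (Point.some 0 0 h0 : (freyQb P).Point) = Point.some 0 0 h0 := by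
  rw [Point.algEquiv_smul_def, Point.map_some]
  congr 1 <;> exact map_zero σ

theorem aux_eq_of_xco (h0 : (freyQb P).Nonsingular 0 0) {Q : (freyQb P).Point}
    (h : xco P Q = some 0) : Q = Point.some 0 0 h0 := by
  rcases Q with _ | ⟨x, y, hxy⟩
  · simp [xco] at h
  · simp only [xco, Option.some.injEq] at h
    subst h
    have h1 := aux_equation P hxy
    have hy : y = 0 := by
      have h2 : y ^ 2 = 0 := by linear_combination h1
      exact pow_eq_zero_iff (two_ne_zero) |>.mp h2
    subst hy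
    rfl

/-- Translation by `T₀`: `x(Q + T₀) = a₄ / x(Q)` for `x(Q) ≠ 0`. -/
theorem aux_xco_add (h0 : (freyQb P).Nonsingular 0 0) {Q : (freyQb P).Point} {x : Qb}
    (h : xco P Q = some x) (hx : x ≠ 0) :
    xco P (Q + Point.some 0 0 h0) = some (fa₄ P / x) := by
  rcases Q with _ | ⟨x', y, hxy⟩
  · simp [xco] at h
  · simp only [xco, Option.some.injEq] at h
    subst h
    have h1 := aux_equation P hxy
    rw [Point.add_of_X_ne hx]
    simp only [xco, Option.some.injEq]
    rw [Affine.slope_of_X_ne hx, Affine.addX, frey_a₁, frey_a₂]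
    unfold fa₂ at h1
    field_simp
    linear_combination (4 * x') * h1

/-- A nonzero point of odd order `p` has `x ≠ 0`. -/
theorem aux_xco_ne_zero (h0 : (freyQb P).Nonsingular 0 0) {Q : (freyQb P).Point} {x : Qb}
    (hQ : P.p • Q = 0) (h : xco P Q = some x) : x ≠ 0 := by
  rintro rfl
  have hQ0 : Q = Point.some 0 0 h0 := aux_eq_of_xco P h0 h
  have h2 : Q + Q = 0 := by rw [hQ0]; exact aux_add_self P h0
  have hodd : Odd P.p := P.pp.odd_of_ne_two (by have := P.hp5; omega)
  obtain ⟨k, hk⟩ := hodd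
  have h2' : (2 : ℕ) • Q = 0 := by rw [two_nsmul]; exact h2
  rw [hk, add_nsmul, mul_nsmul, h2', one_nsmul, nsmul_zero, zero_add] at hQ
  rw [hQ] at hQ0
  exact Point.some_ne_zero h0 hQ0.symm

/-! ### The statements of `Frey2.lean` -/

theorem T0_add_T0 : T0 P + T0 P = 0 := aux_add_self P _

theorem T0_ne_zero : T0 P ≠ 0 := Point.some_ne_zero _

theorem smul_T0 (σ : Gal) : σ • T0 P = T0 P := aux_smul P σ _

theorem eq_T0_of_xco {Q : (freyQb P).Point} (h : xco P Q = some 0) : Q = T0 P :=
  aux_eq_of_xco P _ h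

/-- Translation by `T₀`: `x(Q + T₀) = a₄ / x(Q)` for `x(Q) ≠ 0`. -/
theorem xco_add_T0 {Q : (freyQb P).Point} {x : Qb} (h : xco P Q = some x) (hx : x ≠ 0) :
    xco P (Q + T0 P) = some (fa₄ P / x) :=
  aux_xco_add P _ h hx

/-- A nonzero point of odd order `p` has `x ≠ 0`. -/
theorem xco_ne_zero_of_torsion {Q : (freyQb P).Point} {x : Qb} (hQ : P.p • Q = 0)
    (h : xco P Q = some x) : x ≠ 0 :=
  aux_xco_ne_zero P (nonsingular_zero P) hQ h

end Fermat.Agent.S13.TwoAdic.Frey2H
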